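import Fermat.Agent.Crux.GM.Psi
import Fermat.Agent.S28.LD

/-!
# Crux / GT / PF-Deg : `[F_K : K(j)] = #XN M` for every subfield `K ⊆ ℚ̄`
TASK CRUX/GT-PF-Deg.

`F₀ = modularFunctionFieldFullC K M ⊆ K((q))`, `jK = j ∈ F₀`, `β : F₀ → FF M` induced by `coeffMap (algebraMap K ℚ̄)`.

* `beta_*` : `Subtype.ext` + `coeffMap_jqModC`, `coeffMap_single`, `algebraMap_laurentSeries_eq_single`,
  `S17.IsFFAux.coeffEmb_qExpand_jq` (see the proofs in `Crux/GM/Psi.lean`: `algHom_eq_of_Psi`, `sigma_Psi_const`, which can be
  applied with `F := F₀`, `Φ := F₀.val`, `Ψ := beta K M`, `hΨ := fun _ => rfl`).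
* `finrank_F0`.
  (≤, and finiteness)  Let `b : ι → F₀` be linearly independent over `K⟮jK⟯`.  Then `(b i : K((q)))` is linearly independent over
  `K⟮jqModC K⟯ ⊆ K((q))` [the two fields are identified by `F₀.val`: e.g. `IntermediateField.lift`/`map`; or go through
  polynomial relations, `S28.linearIndependent_iff_polyIndep` in `S28/LD.lean`], so by `S28.linearIndependent_coeffMap (algebraMap K Qb)`
  the `coeffMap _ (b i) = β (b i)` are independent over `Qb⟮jqModC Qb⟯`, i.e. `β ∘ b` is independent over `Qb⟮jN M⟯ ⊆ FF M`;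
  so `#ι ≤ finrank Qb⟮jN M⟯ (FF M) = Nat.card (XN M)` (`S24.finrank_FN`, `S24.finiteDimensional_FN`,
  `LinearIndependent.fintype_card_le_finrank` …).  Hence `Module.rank ≤ #XN M` (`Module.rank_le`), so `F₀` is finite
  over `K⟮jK⟯` (`Module.rank_lt_aleph0_iff`) and `finrank ≤ #XN M`.
  (≥)  `S24.package_generic M 1 one_ne_zero (by norm_num)` gives `σ : XN M → FN M →ₐ[Kb] ℂ((w))` injective, equal on `jN M`.
  `σ a ∘ β` are `K`-algebra homs (`Algebra K ℂ((w))` through `Qb`), pairwise distinct (`algHom_eq_of_beta`), equal on `jK`: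
  `S24.Packages.card_le_finrank_of_embeddings`.
-/

set_option autoImplicit false

open ModularCurve
open scoped IntermediateField MatrixGroups

namespace Fermat.Agent.Crux.GT.PF

open Fermat.Agent.S24 (Kb FN XN jN)

variable (K : Type) [Field K] (M : ℕ) [NeZero M]

/-! shortcut instances (instance search through `LaurentSeries K` is very slow: about 1 s per query). -/

noncomputable instance (priority := high) instFieldF0 : Field (modularFunctionFieldFullC K M) :=
  inferInstance

noncomputable instance (priority := high) instAlgKF0 :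
    Algebra K (modularFunctionFieldFullC K M) := inferInstance

/-- `j` as an element of `F₀ = K(j(q^d) : d ∣ M)`. -/
noncomputable def jK : modularFunctionFieldFullC K M := ⟨jqModC K, jqModC_mem_full K M⟩

noncomputable instance (priority := high) instFieldKj : Field K⟮jK K M⟯ := inferInstance

noncomputable instance (priority := high) instAlgKj : Algebra K K⟮jK K M⟯ :=
  (K⟮jK K M⟯).algebra'

noncomputable instance (priority := high) instAlgKjF0 :
    Algebra K⟮jK K M⟯ (modularFunctionFieldFullC K M) := inferInstance

instance (priority := high) instTowerKjF0 :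
    IsScalarTower K K⟮jK K M⟯ (modularFunctionFieldFullC K M) := inferInstance

variable [Algebra K Kb]

/-- `β : F_K → F_{ℚ̄}`. -/
noncomputable def beta : modularFunctionFieldFullC K M →+* FN M :=
  ((coeffMap (algebraMap K Kb)).comp
    ((modularFunctionFieldFullC K M).val : _ →+* LaurentSeries K)).codRestrict
      (modularFunctionFieldBar M) (fun f => GM.coeffMap_mem_bar M f.2)

theorem beta_coe (f : modularFunctionFieldFullC K M) :
    ((beta K M f : FN M) : LaurentSeries Kb) = coeffMap (algebraMap K Kb) (f : LaurentSeries K) :=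
  rfl

theorem beta_jK : beta K M (jK K M) = jN M := by
  apply Subtype.ext
  rw [beta_coe]
  show coeffMap (algebraMap K Kb) (jqModC K) = coeffEmb Kb (qExpand ℚ 1 jq)
  rw [coeffMap_jqModC, S17.IsFFAux.coeffEmb_qExpand_jq, qExpand_one_apply]

theorem beta_algebraMap (a : K) :
    beta K M (algebraMap K (modularFunctionFieldFullC K M) a)
      = algebraMap Kb (FN M) (algebraMap K Kb a) := by
  apply Subtype.ext
  rw [beta_coe]
  show coeffMap (algebraMap K Kb) (algebraMap K (LaurentSeries K) a)
    = algebraMap Kb (LaurentSeries Kb) (algebraMap K Kb a)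
  rw [algebraMap_laurentSeries_eq_single, coeffMap_single, algebraMap_laurentSeries_eq_single]

theorem algHom_eq_of_beta (σ σ' : FN M →ₐ[Kb] LaurentSeries ℂ)
    (h : ∀ f, σ (beta K M f) = σ' (beta K M f)) : σ = σ' :=
  GM.algHom_eq_of_Psi M
    (Φ := ((modularFunctionFieldFullC K M).val : _ →+* LaurentSeries K))
    (fun z hz => ⟨⟨z, hz⟩, rfl⟩) (beta K M) (fun _ => rfl) σ σ' h

/-! ### linear independence over `k(t)` via polynomial relations -/

section PI

open Polynomial

/-- Linear independence over `k(t)`, phrased with polynomials (general version of `S28.PolyIndep`). -/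
def PI (k : Type*) {E : Type*} [Field k] [Field E] [Algebra k E] (t : E) {ι : Type*}
    (x : ι → E) : Prop :=
  ∀ (s : Finset ι) (P : ι → k[X]), ∑ i ∈ s, aeval t (P i) * x i = 0 → ∀ i ∈ s, aeval t (P i) = 0

open scoped IntermediateField.algebraAdjoinAdjoin in
theorem linearIndependent_iff_PI (k : Type*) {E : Type*} [Field k] [Field E] [Algebra k E] (t : E)
    {ι : Type*} (x : ι → E) : LinearIndependent k⟮t⟯ x ↔ PI k t x := by
  constructor
  · intro h s P hP i hi
    have hmem : ∀ i, aeval t (P i) ∈ k⟮t⟯ := fun i =>
      IntermediateField.algebra_adjoin_le_adjoin _ _ (Polynomial.aeval_mem_adjoin_singleton _ _)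
    have := linearIndependent_iff'.mp h s (fun i => ⟨aeval t (P i), hmem i⟩) hP i hi
    exact congrArg Subtype.val this
  · intro h
    rw [← LinearIndependent.iff_fractionRing (Algebra.adjoin k {t}) k⟮t⟯, linearIndependent_iff']
    intro s g hg i hi
    have hex : ∀ i, ∃ P : k[X], aeval t P = (g i : E) := by
      intro i
      have h' : (g i : E) ∈ (aeval (R := k) t).range := by
        rw [← Algebra.adjoin_singleton_eq_range_aeval]
        exact (g i).2
      exact h'
    choose P hP using hex
    have h1 : ∑ i ∈ s, aeval t (P i) * x i = 0 := by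
      rw [← hg]
      refine Finset.sum_congr rfl fun i _ => ?_
      rw [hP]
      rfl
    apply Subtype.ext
    rw [← hP]
    exact h s P h1 i hi

theorem PI_map_iff {k E E' : Type*} [Field k] [Field E] [Field E'] [Algebra k E] [Algebra k E']
    (φ : E →ₐ[k] E') (t : E) {ι : Type*} (x : ι → E) :
    PI k (φ t) (fun i => φ (x i)) ↔ PI k t x := by
  have key : ∀ (s : Finset ι) (P : ι → k[X]),
      ∑ i ∈ s, aeval (φ t) (P i) * φ (x i) = φ (∑ i ∈ s, aeval t (P i) * x i) := by
    intro s P
    rw [map_sum]
    refine Finset.sum_congr rfl fun i _ => ?_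
    rw [map_mul, aeval_algHom_apply]
  constructor
  · intro h s P hP i hi
    have h1 := h s P (by rw [key, hP, map_zero]) i hi
    rw [aeval_algHom_apply] at h1
    exact (map_eq_zero φ).mp h1
  · intro h s P hP i hi
    rw [key] at hP
    rw [aeval_algHom_apply, h s P ((map_eq_zero φ).mp hP) i hi, map_zero]

end PI

/-- `β` preserves linear independence over `K(j)`. -/
theorem linearIndependent_beta {ι : Type*} (b : ι → modularFunctionFieldFullC K M)
    (h : LinearIndependent K⟮jK K M⟯ b) :
    LinearIndependent Kb⟮jN M⟯ (fun i => beta K M (b i)) := by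
  rw [linearIndependent_iff_PI] at h ⊢
  rw [← PI_map_iff (modularFunctionFieldFullC K M).val] at h
  rw [← PI_map_iff (modularFunctionFieldBar M).val]
  have h2 := S28.polyIndep_coeffMap_aux (K := Kb) (jqModC K)
    (fun i => ((b i : modularFunctionFieldFullC K M) : LaurentSeries K)) h
  have hj : (modularFunctionFieldBar M).val (jN M) = coeffMap (algebraMap K Kb) (jqModC K) := by
    rw [← beta_jK K M]
    rfl
  rw [hj]
  exact h2

theorem finrank_F0 :
    FiniteDimensional K⟮jK K M⟯ (modularFunctionFieldFullC K M) ∧
      Module.finrank K⟮jK K M⟯ (modularFunctionFieldFullC K M) = Nat.card (XN M) := by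
  have hrank : Module.rank K⟮jK K M⟯ (modularFunctionFieldFullC K M) ≤ (Nat.card (XN M) : ℕ) := by
    apply rank_le
    intro s hs
    have h1 := linearIndependent_beta K M _ hs
    have := S24.finiteDimensional_FN M
    have h2 := h1.fintype_card_le_finrank
    rw [S24.finrank_FN, Fintype.card_coe] at h2
    exact h2
  have hfin : FiniteDimensional K⟮jK K M⟯ (modularFunctionFieldFullC K M) := by
    rw [FiniteDimensional, ← Module.rank_lt_aleph0_iff]
    exact lt_of_le_of_lt hrank (Cardinal.natCast_lt_aleph0)
  refine ⟨hfin, le_antisymm (Module.finrank_le_of_rank_le hrank) ?_⟩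
  obtain ⟨σ, hσ, hσj, -⟩ := S24.package_generic M 1 one_ne_zero (by norm_num)
  letI : Algebra K (LaurentSeries ℂ) :=
    ((algebraMap Kb (LaurentSeries ℂ)).comp (algebraMap K Kb)).toAlgebra
  let τ : XN M → modularFunctionFieldFullC K M →ₐ[K] LaurentSeries ℂ := fun a =>
    { ((σ a : FN M →+* LaurentSeries ℂ).comp (beta K M)) with
      commutes' := fun r => by
        show σ a (beta K M (algebraMap K (modularFunctionFieldFullC K M) r)) = _
        rw [beta_algebraMap, AlgHom.commutes]
        rfl }
  have hτ : Function.Injective τ := by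
    intro a b hab
    apply hσ
    apply algHom_eq_of_beta K M
    intro f
    exact DFunLike.congr_fun hab f
  have hx : ∀ a b, τ a (jK K M) = τ b (jK K M) := by
    intro a b
    show σ a (beta K M (jK K M)) = σ b (beta K M (jK K M))
    rw [beta_jK]
    exact hσj a b
  exact S24.Packages.card_le_finrank_of_embeddings (jK K M) τ hτ hx

end Fermat.Agent.Crux.GT.PF
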