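import Fermat.Agent.Crux.GM.AlgClosed

/-!
# Crux / GT / PF-Iota : ring homomorphisms out of a simple transcendental extension
TASK CRUX/GT-PF-Iota.   (Mathlib + `GM.eq_C_of_isAlgebraic` only.)

* `exists_iota` : `t` transcendental over `K`, `ρ : K → Ω'`, `T ∈ Ω'` "transcendental over `ρ`" ⟹ there is
  `ι : K(t) → Ω'` with `ι|K = ρ`, `ι t = T`.
  PROOF: `RatFunc.algEquivOfTranscendental t ht : RatFunc K ≃ₐ[K] K⟮t⟯` (`…_X`, `…_symm_gen`), and
  `RatFunc.liftRingHom (Polynomial.eval₂RingHom ρ T) _ : RatFunc K →+* Ω'` (`RatFunc.liftRingHom_apply…`,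
  hypothesis `K[X]⁰ ≤ Ω'⁰.comap _` from `hT`), or `IsFractionRing.lift`/`IsLocalization.lift`.
* `ringHom_ext_adjoin_simple` : two ring homs out of `K⟮t⟯` agreeing on `K` and on `t` are equal.
  PROOF: the equaliser `Subfield` / `IntermediateField.adjoin_induction`; or make `Ω'` a `K`-algebra through `f`,
  turn `f, g` into `AlgHom`s and use `IntermediateField.adjoin_algHom_ext` / `IntermediateField.algHom_ext_of_eq_adjoin`.
* `eval₂_ne_zero_of_order` : a power series `T` with `ord (T - c) = 1` is not a root of any nonzero polynomial with constant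
  coefficients.  PROOF: otherwise `ofPowerSeries T` is algebraic over `κ`, hence `= HahnSeries.C c'`
  (`GM.eq_C_of_isAlgebraic`), so `T = C c'`, `T - C c = C (c' - c)` has order `0` or `⊤`.   (Or directly: `p = (X - c)^k g`, `g(c) ≠ 0`.)
-/

set_option autoImplicit false

open Polynomial
open scoped IntermediateField

namespace Fermat.Agent.Crux.GT.PF

theorem exists_iota {K Ω Ω' : Type*} [Field K] [Field Ω] [Field Ω'] [Algebra K Ω] (t : Ω)
    (ht : Transcendental K t) (ρ : K →+* Ω') (T : Ω')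
    (hT : ∀ p : K[X], p ≠ 0 → eval₂ ρ T p ≠ 0) :
    ∃ ι : K⟮t⟯ →+* Ω', (∀ a : K, ι (algebraMap K K⟮t⟯ a) = ρ a) ∧
      ι (IntermediateField.AdjoinSimple.gen K t) = T := by
  have hφ : nonZeroDivisors K[X] ≤ Submonoid.comap (eval₂RingHom ρ T) (nonZeroDivisors Ω') := by
    intro p hp
    rw [Submonoid.mem_comap, mem_nonZeroDivisors_iff_ne_zero]
    exact hT p (nonZeroDivisors.ne_zero hp)
  refine ⟨(RatFunc.liftRingHom (eval₂RingHom ρ T) hφ).comp
    ((RatFunc.algEquivOfTranscendental t ht).symm : K⟮t⟯ →+* RatFunc K), fun a => ?_, ?_⟩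
  · have e : ((RatFunc.algEquivOfTranscendental t ht).symm : K⟮t⟯ →+* RatFunc K)
        (algebraMap K K⟮t⟯ a) = RatFunc.C a :=
      (RatFunc.algEquivOfTranscendental t ht).symm.commutes a
    rw [RingHom.comp_apply, e, RatFunc.liftRingHom_C, coe_eval₂RingHom, eval₂_C]
  · have e : ((RatFunc.algEquivOfTranscendental t ht).symm : K⟮t⟯ →+* RatFunc K)
        (IntermediateField.AdjoinSimple.gen K t) = RatFunc.X :=
      RatFunc.algEquivOfTranscendental_symm_gen t ht
    rw [RingHom.comp_apply, e, RatFunc.liftRingHom_X, coe_eval₂RingHom, eval₂_X]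

theorem ringHom_ext_adjoin_simple {K Ω Ω' : Type*} [Field K] [Field Ω] [Field Ω'] [Algebra K Ω]
    (t : Ω) (f g : K⟮t⟯ →+* Ω')
    (h1 : ∀ a : K, f (algebraMap K K⟮t⟯ a) = g (algebraMap K K⟮t⟯ a))
    (h2 : f (IntermediateField.AdjoinSimple.gen K t) = g (IntermediateField.AdjoinSimple.gen K t)) :
    f = g := by
  let _ : Algebra K Ω' := (f.comp (algebraMap K K⟮t⟯)).toAlgebra
  let f' : K⟮t⟯ →ₐ[K] Ω' := { f with commutes' := fun _ => rfl }
  let g' : K⟮t⟯ →ₐ[K] Ω' := { g with commutes' := fun a => (h1 a).symm }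
  have h : f' = g' := by
    apply IntermediateField.adjoin_algHom_ext
    intro x hx
    obtain rfl : x = t := hx
    exact h2
  ext x
  exact DFunLike.congr_fun h x

theorem eval₂_ne_zero_of_order {K κ : Type*} [Field K] [Field κ] (ρ : K →+* κ)
    (T : PowerSeries κ) (c : κ) (hT : (T - PowerSeries.C c).order = 1) (p : K[X]) (hp : p ≠ 0) :
    eval₂ ((HahnSeries.C : κ →+* LaurentSeries κ).comp ρ) (HahnSeries.ofPowerSeries ℤ κ T) p ≠ 0 := by
  intro h0
  have halg : IsAlgebraic κ (HahnSeries.ofPowerSeries ℤ κ T) := by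
    refine ⟨p.map ρ, (Polynomial.map_ne_zero_iff ρ.injective).2 hp, ?_⟩
    rw [aeval_def, eval₂_map]
    have e := GM.AlgClosed.algebraMap_eq_C (K := κ)
    rw [show algebraMap κ (HahnSeries ℤ κ) = (HahnSeries.C : κ →+* LaurentSeries κ) from e]
    exact h0
  obtain ⟨c', hc'⟩ := GM.eq_C_of_isAlgebraic _ halg
  have hT' : T = PowerSeries.C c' := by
    apply HahnSeries.ofPowerSeries_injective (Γ := ℤ)
    rw [hc', HahnSeries.ofPowerSeries_C]
  rw [hT', ← map_sub] at hT
  by_cases hcc : c' - c = 0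
  · rw [hcc, map_zero, PowerSeries.order_zero] at hT
    exact absurd hT (by simp)
  · have : (PowerSeries.C (c' - c) : PowerSeries κ).order = 0 := by
      rw [PowerSeries.order_eq_nat (n := 0) |>.2]
      · rfl
      · refine ⟨?_, fun i hi => absurd hi (Nat.not_lt_zero i)⟩
        simpa using hcc
    rw [this] at hT
    exact zero_ne_one hT

end Fermat.Agent.Crux.GT.PF
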