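import Fermat.Agent.Crux.GT.Basic
import Fermat.Agent.Crux.GT.PF.Deg

/-!
# Crux / GT / PF-Maps : the maps `φ = V_e : F₀ → F`, `ψ = V_e : K(j) → E`
TASK CRUX/GT-PF-Maps.

`t = c.tK M`, `e = M * s`, `E = EE K t = K⟮t⟯`, `F = F1 K t e M = E(j(x^{e d}) : d ∣ M)`, `F₀ = modularFunctionFieldFullC K M`.

* `qExpand_mem_EE` : `K⟮jK⟯ ≤ (EE K t).comap ((qExpandAlgHomC K e).comp F₀.val)` by `IntermediateField.adjoin_simple_le_iff`:
  `qExpand K e (jqModC K) = jd K e` (`S28.jd_eq`) `∈ EE K t` (`jd_mem_EE c M hQ`).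
* `phi_algebraMap`, `psi_algebraMap`, `psi_gen` : `Subtype.ext`/`rfl` (constants: `qExpandAlgHomC … .commutes`).
* `hgen_F1` : let `T` be a subfield of `F` containing `E` and `φ(F₀)`.  `F = adjoin E (gens K e M)`: for `y : F` use
  `IntermediateField.adjoin_induction` on `y.2` (statement: `∀ z (hz : z ∈ F1 …), (⟨z, hz⟩ : F) ∈ T`), the generators being
  `jd K (e * d) = V_e (jd K d) = φ ⟨jd K d, _⟩` (`S28.V_jd`, `S28.jd_mem_full`, `d ≠ 0` since `d ∣ M ≠ 0`).
* `transcendental_tK` : `c.tK M` has order `-M < 0` … or from `transcendental_tE c M : Transcendental A (tE K (c.tK M))`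
  (clear denominators: `K = Frac A`), or `GM.transcendental_of_order_neg`-style: `GM.eq_C_of_isAlgebraic` (Crux/GM/AlgClosed.lean) and
  `tK` is not a constant: `rel_tK` would make `jd K e` a constant (order `-e ≠ 0`, `S28.order_jd`) [if `t = C a` then
  `P(a) = jd * Q(a)`; `Q(a) ≠ 0` or (`Q(a) = 0 = P(a)`, excluded by `hb.bezout`, char `0`)].
-/

set_option autoImplicit false

open Polynomial ModularCurve
open scoped IntermediateField

namespace Fermat.Agent.Crux.GT.PF

noncomputable section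

open Fermat.Agent.S28 (jd)

variable {K : Type} [Field K] {A : ValuationSubring K}
variable {s : ℕ} [NeZero s] {P Q : ℤ[X]} (c : Coord A s P Q) (M : ℕ) [NeZero M]

/-- `φ = V_e : F₀ → F`. -/
def phi : modularFunctionFieldFullC K M →+* F1 K (c.tK M) (M * s) M :=
  ((qExpand K (M * s)).comp
    ((modularFunctionFieldFullC K M).val : _ →+* LaurentSeries K)).codRestrict
      (F1 K (c.tK M) (M * s) M) (fun f => qExpand_mem_F1 c M f.2)

theorem phi_coe (f : modularFunctionFieldFullC K M) :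
    ((phi c M f : F1 K (c.tK M) (M * s) M) : Om K) = qExpand K (M * s) (f : LaurentSeries K) := rfl

theorem qExpand_mem_EE (hQ : Q.Monic) (x : K⟮jK K M⟯) :
    qExpand K (M * s) (((x : modularFunctionFieldFullC K M)) : LaurentSeries K) ∈ EE K (c.tK M) := by
  have : NeZero (M * s) := ⟨mul_ne_zero (NeZero.ne M) (NeZero.ne s)⟩
  have hle : K⟮jK K M⟯ ≤ (EE K (c.tK M)).comap
      ((qExpandAlgHomC K (M * s)).comp (modularFunctionFieldFullC K M).val) := by
    rw [IntermediateField.adjoin_simple_le_iff]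
    change qExpand K (M * s) (jqModC K) ∈ EE K (c.tK M)
    have h := jd_mem_EE c M hQ
    rw [Fermat.Agent.S28.jd_eq] at h
    exact h
  exact hle x.2

/-- `ψ = V_e : K(j) → E`. -/
def psi (hQ : Q.Monic) : K⟮jK K M⟯ →+* EE K (c.tK M) :=
  (((qExpand K (M * s)).comp
    ((modularFunctionFieldFullC K M).val : _ →+* LaurentSeries K)).comp
      ((K⟮jK K M⟯).val : _ →+* modularFunctionFieldFullC K M)).codRestrict
      (EE K (c.tK M)) (fun x => qExpand_mem_EE c M hQ x)

theorem phi_algebraMap (hQ : Q.Monic) (x : K⟮jK K M⟯) :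
    phi c M (algebraMap K⟮jK K M⟯ (modularFunctionFieldFullC K M) x)
      = algebraMap (EE K (c.tK M)) (F1 K (c.tK M) (M * s) M) (psi c M hQ x) := by
  apply Subtype.ext
  rfl

theorem psi_algebraMap (hQ : Q.Monic) (a : K) :
    psi c M hQ (algebraMap K K⟮jK K M⟯ a) = algebraMap K (EE K (c.tK M)) a := by
  have : NeZero (M * s) := ⟨mul_ne_zero (NeZero.ne M) (NeZero.ne s)⟩
  apply Subtype.ext
  exact (qExpandAlgHomC K (M * s)).commutes a

theorem psi_gen (hQ : Q.Monic) :
    ((psi c M hQ (IntermediateField.AdjoinSimple.gen K (jK K M)) : EE K (c.tK M)) : Om K)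
      = jd K (M * s) := by
  have : NeZero (M * s) := ⟨mul_ne_zero (NeZero.ne M) (NeZero.ne s)⟩
  rw [Fermat.Agent.S28.jd_eq]
  rfl

theorem hgen_F1 (T : Subfield (F1 K (c.tK M) (M * s) M))
    (h1 : ∀ y, algebraMap (EE K (c.tK M)) (F1 K (c.tK M) (M * s) M) y ∈ T)
    (h2 : ∀ f, phi c M f ∈ T) : T = ⊤ := by
  have : NeZero (M * s) := ⟨mul_ne_zero (NeZero.ne M) (NeZero.ne s)⟩
  let T' : IntermediateField (EE K (c.tK M)) (Om K) :=
    (T.map ((F1 K (c.tK M) (M * s) M).val : F1 K (c.tK M) (M * s) M →+* Om K)).toIntermediateField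
      (fun x => ⟨algebraMap (EE K (c.tK M)) (F1 K (c.tK M) (M * s) M) x, h1 x, rfl⟩)
  have hle : F1 K (c.tK M) (M * s) M ≤ T' := by
    rw [IntermediateField.adjoin_le_iff]
    rintro _ ⟨d, hd, rfl⟩
    have hd0 : d ≠ 0 := ne_zero_of_dvd_ne_zero (NeZero.ne M) hd
    exact ⟨phi c M ⟨jd K d, Fermat.Agent.S28.jd_mem_full hd0 hd⟩, h2 _,
      Fermat.Agent.S28.V_jd (M * s) hd0⟩
  rw [eq_top_iff]
  intro y _
  obtain ⟨y', hy', hyy⟩ := hle y.2
  have : y' = y := Subtype.ext hyy
  rw [← this]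
  exact hy'

theorem transcendental_tK [CharZero K] (hb : IsBase s P Q) : Transcendental K (c.tK M) := by
  have hZ : IsUnit (PowerSeries.constantCoeff (c.Z.map A.subtype)) := by
    have : PowerSeries.constantCoeff (c.Z.map A.subtype)
        = A.subtype (PowerSeries.constantCoeff c.Z) := by
      rw [← PowerSeries.coeff_zero_eq_constantCoeff_apply, PowerSeries.coeff_map,
        PowerSeries.coeff_zero_eq_constantCoeff_apply]
    rw [this]
    exact c.hZ.map A.subtype
  have ht : c.tK M = qExpand K M (tOf (c.Z.map A.subtype)) := by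
    rw [Coord.tK, Coord.tA, Fermat.Agent.S28.Build.coeffMap_V, coeffMap_tOf]
  rw [transcendental_iff]
  intro p hp
  rw [← Fermat.Agent.S28.evAt_eq_aeval, ht] at hp
  exact (map_eq_zero_iff _ (evAt_tOf_injective _ hZ M)).1 hp

end

end Fermat.Agent.Crux.GT.PF
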