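import Fermat.Agent.S24.Packages

/-!
# Crux / GT / PF-Pack : the S24 packages in uniform shape
TASK CRUX/GT-PF-Pack.

For every `c₀ ∈ ℚ̄` there are `#XN N` distinct `ℚ̄`-embeddings `σ_a : FN N → ℂ((w))` with
`σ_a(j) = c₀ + v`, `v ∈ ℂ⟦w⟧` of order `e₀ = 3, 2, 1` according to `c₀ = 0`, `c₀ = 1728`, otherwise.

PROOF.  Case split `c₀ = 0` (`S24.package_rho`, `jN - algebraMap 0 = jN`), `c₀ = 1728` (`S24.package_I`), otherwise
(`S24.package_generic`).  In each case we get `σ` injective, all `σ a (jN N)` equal, and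
`(σ a (jN N - algebraMap Kb (FN N) c₀)).order = e₀ > 0`.  Fix `a₀ := ((1 : SL(2,ℤ)) : XN N)`,
`V := σ a₀ (jN N - algebraMap _ _ c₀) = σ a₀ (jN N) - HahnSeries.C (iotaC c₀)`
(`AlgHom.commutes`, `S24.Packages.algebraMap_Kb`; `algebraMap Kb ℂ = iotaC` is `rfl`).
`V` has no terms of negative degree (`HahnSeries.coeff_eq_zero_of_lt_order`), so `V = ofPowerSeries v` with
`v = PowerSeries.mk fun n => V.coeff n` (see `GM.TowerPack.exists_powerSeries` in `Crux/GM/TowerPack.lean` for this step; copy it,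
do not import) and `v.order = e₀` (`PowerSeries.order_eq_nat`, resp. `HahnSeries.order_ofPowerSeries`-type lemmas:
`HahnSeries.ofPowerSeries_apply_coeff`, `HahnSeries.coeff_order_eq_zero`).
-/

set_option autoImplicit false

open ModularCurve
open scoped MatrixGroups

namespace Fermat.Agent.Crux.GT.PF

open Fermat.Agent.S24 (Kb FN XN jN iotaC)

/-- common part of the three cases. -/
theorem package_aux (N : ℕ) [NeZero N] (c₀ : Kb) (e₀ : ℕ) (he : 0 < e₀)
    (σ : XN N → FN N →ₐ[Kb] LaurentSeries ℂ) (hj : ∀ a b, σ a (jN N) = σ b (jN N))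
    (hord : ∀ a, (σ a (jN N - algebraMap Kb (FN N) c₀)).order = e₀) :
    ∃ v : PowerSeries ℂ,
      (∀ a, σ a (jN N) = HahnSeries.ofPowerSeries ℤ ℂ (PowerSeries.C (iotaC c₀) + v)) ∧
      v.order = e₀ := by
  set a₀ : XN N := ((1 : SL(2, ℤ)) : XN N) with ha₀
  set V : LaurentSeries ℂ := σ a₀ (jN N - algebraMap Kb (FN N) c₀) with hV
  have hVord : V.order = e₀ := hord a₀
  have hV0 : V ≠ 0 := by
    intro h
    rw [h, HahnSeries.order_zero] at hVord
    have : (e₀ : ℤ) = 0 := hVord.symm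
    omega
  have hlt : ∀ k : ℤ, k < e₀ → V.coeff k = 0 := fun k hk =>
    HahnSeries.coeff_eq_zero_of_lt_order (by rw [hVord]; exact hk)
  have hVv : HahnSeries.ofPowerSeries ℤ ℂ (PowerSeries.mk fun n : ℕ => V.coeff n) = V := by
    ext k
    have := PowerSeries.coeff_coe (R := ℂ) (PowerSeries.mk fun n : ℕ => V.coeff n) k
    refine this.trans ?_
    split_ifs with hk
    · exact (hlt k (by omega)).symm
    · rw [PowerSeries.coeff_mk, Int.natCast_natAbs, abs_of_nonneg (not_lt.mp hk)]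
  refine ⟨PowerSeries.mk fun n : ℕ => V.coeff n, fun a => ?_, ?_⟩
  · rw [map_add, hVv, HahnSeries.ofPowerSeries_C, hj a a₀, hV, map_sub, AlgHom.commutes,
      Fermat.Agent.S24.Packages.algebraMap_Kb]
    show _ = HahnSeries.C (algebraMap Kb ℂ c₀) + _
    ring
  · rw [PowerSeries.order_eq_nat]
    refine ⟨?_, fun i hi => ?_⟩
    · rw [PowerSeries.coeff_mk, ← hVord]
      exact fun h => hV0 (HahnSeries.coeff_order_eq_zero.1 h)
    · rw [PowerSeries.coeff_mk]
      exact hlt i (by exact_mod_cast hi)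

theorem package_at (N : ℕ) [NeZero N] (c₀ : Kb) :
    ∃ (e₀ : ℕ) (σ : XN N → FN N →ₐ[Kb] LaurentSeries ℂ) (v : PowerSeries ℂ),
      Function.Injective σ ∧
      (∀ a, σ a (jN N) = HahnSeries.ofPowerSeries ℤ ℂ (PowerSeries.C (iotaC c₀) + v)) ∧
      v.order = e₀ ∧
      (c₀ = 0 → e₀ = 3) ∧ (c₀ = 1728 → e₀ = 2) ∧ (c₀ ≠ 0 → c₀ ≠ 1728 → e₀ = 1) := by
  have h1728 : (1728 : Kb) ≠ 0 := by norm_num
  by_cases h0 : c₀ = 0
  · subst h0
    obtain ⟨σ, -, hσ, -, hj, hord, -⟩ := Fermat.Agent.S24.package_rho N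
    obtain ⟨v, hv, hvo⟩ := package_aux N 0 3 (by norm_num) σ hj (fun a => by
      rw [map_zero, sub_zero]; exact hord a)
    exact ⟨3, σ, v, hσ, hv, hvo, fun _ => rfl, fun h => absurd h.symm h1728,
      fun h => absurd rfl h⟩
  by_cases h1 : c₀ = 1728
  · subst h1
    obtain ⟨σ, hσ, hj, hord, -⟩ := Fermat.Agent.S24.package_I N
    obtain ⟨v, hv, hvo⟩ := package_aux N 1728 2 (by norm_num) σ hj hord
    exact ⟨2, σ, v, hσ, hv, hvo, fun h => absurd h h0, fun _ => rfl, fun _ h => absurd rfl h⟩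
  · obtain ⟨σ, hσ, hj, hord⟩ := Fermat.Agent.S24.package_generic N c₀ h0 h1
    obtain ⟨v, hv, hvo⟩ := package_aux N c₀ 1 (by norm_num) σ hj hord
    exact ⟨1, σ, v, hσ, hv, hvo, fun h => absurd h h0, fun h => absurd h h1, fun _ _ => rfl⟩

end Fermat.Agent.Crux.GT.PF
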